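/-
T1B (row 38), brick Phi4-GEN (generic-fibre hypotheses of DESC' for the hub), helper8.
File 1: DIRECTED UNIONS (Mathlib only).

* `isIntegrallyClosed_of_directed_subrings` : a domain which is the directed union of integrally
  closed subrings is integrally closed;
* `tensorIncl L : ↥L ⊗[K] B →ₐ[K] Ω ⊗[K] B` for an intermediate field `L` of `Ω/K`, injective;
  `exists_finite_mem_range` : every element of `Ω ⊗[K] B` comes from a finite subextension;
* **`isDedekindDomain_tensor_of_algebraic`** : `Ω/K` algebraic, `B` a `K`-algebra of finite type,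
  a domain of dimension `≤ 1`, `Ω ⊗[K] B` a domain, and `L ⊗[K] B` integrally closed for every
  finite subextension `L`  ⟹  `Ω ⊗[K] B` is a Dedekind domain.
-/
import Mathlib

set_option autoImplicit false
set_option linter.unusedSectionVars false
set_option linter.style.haveILetI false

open TensorProduct

namespace Fermat.Agent.T1B.DescGen8.Union

/-! ### Directed unions of integrally closed domains -/

/-- A domain which is the directed union of integrally closed subrings is integrally closed. -/
theorem isIntegrallyClosed_of_directed_subrings {S : Type*} [CommRing S] [IsDomain S]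
    {ι : Type*} [Nonempty ι] (T : ι → Subring S)
    (hdir : ∀ i j, ∃ k, T i ≤ T k ∧ T j ≤ T k) (hcov : ∀ x : S, ∃ i, x ∈ T i)
    (hT : ∀ i, IsIntegrallyClosed (T i)) : IsIntegrallyClosed S := by
  classical
  -- every finite set lies in one of the subrings
  have hfin : ∀ s : Finset S, ∃ i, ∀ x ∈ s, x ∈ T i := by
    intro s
    induction s using Finset.induction_on with
    | empty => exact ⟨Classical.arbitrary ι, by simp⟩
    | insert a s _ ih =>
      obtain ⟨i, hi⟩ := ih
      obtain ⟨j, hj⟩ := hcov a
      obtain ⟨k, hik, hjk⟩ := hdir i j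
      refine ⟨k, fun x hx => ?_⟩
      rcases Finset.mem_insert.1 hx with rfl | hx
      · exact hjk hj
      · exact hik (hi x hx)
  refine (isIntegrallyClosed_iff (FractionRing S)).2 ?_
  intro x hx
  obtain ⟨a, b, hb, rfl⟩ := IsFractionRing.div_surjective (A := S) x
  obtain ⟨p, hpm, hpe⟩ := hx
  obtain ⟨i, hi⟩ := hfin (insert a (insert b p.coeffs))
  have ha : a ∈ T i := hi a (Finset.mem_insert_self _ _)
  have hbT : b ∈ T i := hi b (Finset.mem_insert_of_mem (Finset.mem_insert_self _ _))
  have hp : (↑p.coeffs : Set S) ⊆ ↑(T i) := fun c hc =>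
    hi c (Finset.mem_insert_of_mem (Finset.mem_insert_of_mem hc))
  haveI := hT i
  -- the fraction field of `T i` inside the fraction field of `S`
  have hinj : Function.Injective ((algebraMap S (FractionRing S)).comp (T i).subtype) :=
    (IsFractionRing.injective S (FractionRing S)).comp Subtype.val_injective
  let φ : FractionRing (T i) →+* FractionRing S := IsFractionRing.lift hinj
  have hφ : ∀ y : T i, φ (algebraMap (T i) (FractionRing (T i)) y) =
      algebraMap S (FractionRing S) (y : S) := fun y => IsFractionRing.lift_algebraMap hinj y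
  have hb0 : (⟨b, hbT⟩ : T i) ≠ 0 := by
    intro h
    have : b = 0 := congrArg Subtype.val h
    exact nonZeroDivisors.ne_zero hb this
  set x' : FractionRing (T i) := algebraMap (T i) (FractionRing (T i)) ⟨a, ha⟩ /
    algebraMap (T i) (FractionRing (T i)) ⟨b, hbT⟩ with hx'
  have hφx : φ x' = algebraMap S (FractionRing S) a / algebraMap S (FractionRing S) b := by
    rw [hx', map_div₀, hφ, hφ]
  -- `x'` is integral over `T i`
  have hint : IsIntegral (T i) x' := by
    refine ⟨p.toSubring (T i) hp, (Polynomial.monic_toSubring p (T i) hp).2 hpm, ?_⟩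
    apply φ.injective
    rw [map_zero, Polynomial.hom_eval₂, hφx]
    have hcomp : φ.comp (algebraMap (T i) (FractionRing (T i))) =
        (algebraMap S (FractionRing S)).comp (T i).subtype := RingHom.ext fun y => hφ y
    rw [hcomp, ← Polynomial.eval₂_map, Polynomial.map_toSubring]
    exact hpe
  obtain ⟨y, hy⟩ := (isIntegrallyClosed_iff (FractionRing (T i))).1 (hT i) hint
  refine ⟨(y : S), ?_⟩
  rw [← hφx, ← hy, hφ]

/-! ### The tensor product over an algebraic extension as a directed union -/

section Tensor

variable {K Ω B : Type*} [Field K] [Field Ω] [Algebra K Ω] [CommRing B] [Algebra K B]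

/-- The inclusion `L ⊗[K] B → Ω ⊗[K] B` for an intermediate field `L`. -/
noncomputable def tensorIncl (L : IntermediateField K Ω) : ↥L ⊗[K] B →ₐ[K] Ω ⊗[K] B :=
  Algebra.TensorProduct.map L.val (AlgHom.id K B)

@[simp] theorem tensorIncl_tmul (L : IntermediateField K Ω) (a : L) (b : B) :
    tensorIncl (B := B) L (a ⊗ₜ[K] b) = (a : Ω) ⊗ₜ[K] b := rfl

theorem tensorIncl_injective (L : IntermediateField K Ω) :
    Function.Injective (tensorIncl (B := B) L) := by
  have h := Module.Flat.rTensor_preserves_injective_linearMap (M := B) L.val.toLinearMap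
    (Subtype.val_injective)
  intro x y hxy
  apply h
  have hx : ∀ z : ↥L ⊗[K] B, LinearMap.rTensor B L.val.toLinearMap z = tensorIncl L z := by
    intro z
    induction z using TensorProduct.induction_on with
    | zero => simp
    | tmul a b => rfl
    | add z w hz hw => rw [map_add, map_add, hz, hw]
  rw [hx, hx, hxy]

/-- Transitivity of the inclusions. -/
theorem range_tensorIncl_mono {L L' : IntermediateField K Ω} (h : L ≤ L') :
    (tensorIncl (B := B) L).range ≤ (tensorIncl (B := B) L').range := by
  rintro _ ⟨z, rfl⟩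
  induction z using TensorProduct.induction_on with
  | zero => rw [map_zero]; exact Subalgebra.zero_mem _
  | tmul a b => exact ⟨(⟨(a : Ω), h a.2⟩ : L') ⊗ₜ[K] b, rfl⟩
  | add z w hz hw =>
    rw [map_add]
    exact Subalgebra.add_mem _ hz hw

/-- Every element of `Ω ⊗[K] B` comes from a finite subextension. -/
theorem exists_finite_mem_range [Algebra.IsAlgebraic K Ω] (x : Ω ⊗[K] B) :
    ∃ L : IntermediateField K Ω, FiniteDimensional K L ∧ x ∈ (tensorIncl (B := B) L).range := by
  induction x using TensorProduct.induction_on with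
  | zero => exact ⟨⊥, inferInstance, Subalgebra.zero_mem _⟩
  | tmul ω b =>
    refine ⟨IntermediateField.adjoin K {ω}, IntermediateField.adjoin.finiteDimensional
      (Algebra.IsIntegral.isIntegral ω), ?_⟩
    exact ⟨(⟨ω, IntermediateField.mem_adjoin_simple_self K ω⟩ :
      IntermediateField.adjoin K {ω}) ⊗ₜ[K] b, rfl⟩
  | add x y hx hy =>
    obtain ⟨L1, hL1, h1⟩ := hx
    obtain ⟨L2, hL2, h2⟩ := hy
    haveI := hL1
    haveI := hL2
    refine ⟨L1 ⊔ L2, IntermediateField.finiteDimensional_sup L1 L2, ?_⟩
    exact Subalgebra.add_mem _ (range_tensorIncl_mono le_sup_left h1)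
      (range_tensorIncl_mono le_sup_right h2)

/-- `L ⊗[K] B` is a domain when `Ω ⊗[K] B` is. -/
theorem isDomain_tensor_of_le [IsDomain (Ω ⊗[K] B)] (L : IntermediateField K Ω) :
    IsDomain (↥L ⊗[K] B) :=
  (tensorIncl_injective (B := B) L).isDomain (tensorIncl (B := B) L).toRingHom

/-- **The tensor product with an algebraic extension is Dedekind as soon as the finite levels are
integrally closed.** -/
theorem isDedekindDomain_tensor_of_algebraic [Algebra.IsAlgebraic K Ω] [Algebra.FiniteType K B]
    [IsDomain B] [Ring.DimensionLEOne B] [IsDomain (Ω ⊗[K] B)]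
    (hfin : ∀ L : IntermediateField K Ω, FiniteDimensional K L → IsDomain (↥L ⊗[K] B) →
      IsIntegrallyClosed (↥L ⊗[K] B)) :
    IsDedekindDomain (Ω ⊗[K] B) := by
  -- Noetherian
  haveI : Algebra.FiniteType Ω (Ω ⊗[K] B) := Algebra.FiniteType.baseChange Ω
  haveI hN : IsNoetherianRing (Ω ⊗[K] B) := Algebra.FiniteType.isNoetherianRing Ω (Ω ⊗[K] B)
  -- dimension ≤ 1: `Ω ⊗[K] B ≃ B ⊗[K] Ω` is integral over `B`
  haveI hdim : Ring.DimensionLEOne (Ω ⊗[K] B) := by
    let e : (Ω ⊗[K] B) ≃+* (B ⊗[K] Ω) := (Algebra.TensorProduct.comm K Ω B).toRingEquiv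
    haveI : IsDomain (B ⊗[K] Ω) := e.symm.toMulEquiv.isDomain
    haveI : Algebra.IsIntegral K Ω := inferInstance
    haveI : Ring.DimensionLEOne (B ⊗[K] Ω) := Ring.DimensionLEOne.of_isIntegral B (B ⊗[K] Ω)
    exact Ring.DimensionLEOne.of_ringEquiv e
  -- integrally closed: directed union
  haveI hic : IsIntegrallyClosed (Ω ⊗[K] B) := by
    let ι := {L : IntermediateField K Ω // FiniteDimensional K L}
    haveI : Nonempty ι := ⟨⟨⊥, inferInstance⟩⟩
    refine isIntegrallyClosed_of_directed_subrings
      (fun L : ι => (tensorIncl (B := B) L.1).range.toSubring) ?_ ?_ ?_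
    · rintro ⟨L1, hL1⟩ ⟨L2, hL2⟩
      haveI := hL1
      haveI := hL2
      exact ⟨⟨L1 ⊔ L2, IntermediateField.finiteDimensional_sup L1 L2⟩,
        range_tensorIncl_mono le_sup_left, range_tensorIncl_mono le_sup_right⟩
    · intro x
      obtain ⟨L, hL, hx⟩ := exists_finite_mem_range (B := B) x
      exact ⟨⟨L, hL⟩, hx⟩
    · rintro ⟨L, hL⟩
      haveI := isDomain_tensor_of_le (B := B) L
      haveI := hfin L hL inferInstance
      let e : (↥L ⊗[K] B) ≃+* (tensorIncl (B := B) L).range.toSubring :=
        (AlgEquiv.ofInjective (tensorIncl (B := B) L) (tensorIncl_injective L)).toRingEquiv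
      exact IsIntegrallyClosed.of_equiv (R := ↥L ⊗[K] B) e
  exact { }

end Tensor

end Fermat.Agent.T1B.DescGen8.Union
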