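/-
T1B (row 38), brick Phi4-GEN (generic-fibre hypotheses of DESC' for the hub), helper8.
File 2: PLUMBING (Mathlib only).

`W → K → L` a tower (`K`, `L` fields, `L/K` algebraic), `B` a `W`-algebra of finite type.

* `isDedekindDomain_of_ringEquiv`;
* `flat_of_isFractionRing_tower` : `L` is flat over `W` when `K = Frac W`;
* `tensorMap_injective`, `isDomain_tensor_of_injective` : `L ⊗[W] B → L ⊗[W] B'` is injective for
  `B → B'` injective and `L` flat; domains descend;
* **`isDedekindDomain_tensor_of_base`** : `K ⊗[W] B` Dedekind, `L ⊗[W] B` a domain, and the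
  finite separable step (hypothesis `hsep`, provided by `T1B/DescSep1`)  ⟹  `L ⊗[W] B` Dedekind;
* `not_isField_tensor_of_base` : `L ⊗[W] B` is not a field if `K ⊗[W] B` is not.
-/
import Mathlib
import Fermat.Agent.T1B.DescGen8.Union

set_option autoImplicit false
set_option linter.unusedSectionVars false
set_option linter.style.haveILetI false

open TensorProduct

namespace Fermat.Agent.T1B.DescGen8.Plumb

open Fermat.Agent.T1B.DescGen8.Union

/-- Dedekind domains are invariant under ring isomorphisms. -/
theorem isDedekindDomain_of_ringEquiv {R S : Type*} [CommRing R] [CommRing S]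
    [IsDedekindDomain R] (e : R ≃+* S) : IsDedekindDomain S := by
  haveI : IsDomain S := e.symm.toMulEquiv.isDomain
  haveI : IsNoetherianRing S := isNoetherianRing_of_ringEquiv R e
  haveI : Ring.DimensionLEOne S := Ring.DimensionLEOne.of_ringEquiv e.symm
  haveI : IsIntegrallyClosed S := IsIntegrallyClosed.of_equiv e
  exact { }

section Flat

variable {W K L : Type*} [CommRing W] [Field K] [Field L] [Algebra W K] [Algebra K L]
  [Algebra W L] [IsScalarTower W K L]

/-- A field extension of the fraction field of `W` is flat over `W`. -/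
theorem flat_of_isFractionRing_tower [IsFractionRing W K] : Module.Flat W L := by
  haveI : Module.Flat W K := IsLocalization.flat K (nonZeroDivisors W)
  exact Module.Flat.trans W K L

variable {B B' : Type*} [CommRing B] [CommRing B'] [Algebra W B] [Algebra W B']

/-- `L ⊗[W] B → L ⊗[W] B'` is injective for an injective `B → B'` and a flat `L`. -/
theorem tensorMap_injective [Module.Flat W L] (f : B →ₐ[W] B') (hf : Function.Injective f) :
    Function.Injective (Algebra.TensorProduct.map (AlgHom.id L L) f) := by
  have h := Module.Flat.lTensor_preserves_injective_linearMap (M := L) f.toLinearMap hf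
  intro x y hxy
  apply h
  have hx : ∀ z : L ⊗[W] B, LinearMap.lTensor L f.toLinearMap z =
      Algebra.TensorProduct.map (AlgHom.id L L) f z := by
    intro z
    induction z using TensorProduct.induction_on with
    | zero => simp
    | tmul a b => rfl
    | add z w hz hw => rw [map_add, map_add, hz, hw]
  rw [hx, hx, hxy]

/-- Domains descend along `L ⊗[W] B → L ⊗[W] B'`. -/
theorem isDomain_tensor_of_injective [Module.Flat W L] (f : B →ₐ[W] B')
    (hf : Function.Injective f) [IsDomain (L ⊗[W] B')] : IsDomain (L ⊗[W] B) :=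
  (tensorMap_injective (L := L) f hf).isDomain
    (Algebra.TensorProduct.map (AlgHom.id L L) f).toRingHom

end Flat

section Base

variable {W K L B : Type*} [CommRing W] [Field K] [Field L] [Algebra W K] [Algebra K L]
  [Algebra W L] [IsScalarTower W K L] [CommRing B] [Algebra W B]

/-- `L ⊗[K] (K ⊗[W] B) ≃ L ⊗[W] B`. -/
noncomputable def cancelEquiv : (L ⊗[K] (K ⊗[W] B)) ≃+* (L ⊗[W] B) :=
  (Algebra.TensorProduct.cancelBaseChange W K K L B).toRingEquiv

/-- **The generic fibre of the hub over an algebraic extension of the fraction field is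
Dedekind**, given the base level, the domain property, and the finite separable step. -/
theorem isDedekindDomain_tensor_of_base [Algebra.IsAlgebraic K L] [Algebra.FiniteType W B]
    [IsDedekindDomain (K ⊗[W] B)] [IsDomain (L ⊗[W] B)]
    (hsep : ∀ L' : IntermediateField K L, FiniteDimensional K L' →
      IsDomain (↥L' ⊗[K] (K ⊗[W] B)) → IsIntegrallyClosed (↥L' ⊗[K] (K ⊗[W] B))) :
    IsDedekindDomain (L ⊗[W] B) := by
  haveI : Algebra.FiniteType K (K ⊗[W] B) := Algebra.FiniteType.baseChange K
  haveI : IsDomain (L ⊗[K] (K ⊗[W] B)) :=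
    (cancelEquiv (W := W) (K := K) (L := L) (B := B)).toMulEquiv.isDomain
  haveI : IsDedekindDomain (L ⊗[K] (K ⊗[W] B)) := isDedekindDomain_tensor_of_algebraic hsep
  exact isDedekindDomain_of_ringEquiv (cancelEquiv (W := W) (K := K) (L := L) (B := B))

/-- The generic fibre over `L` is not a field if the one over `K` is not. -/
theorem not_isField_tensor_of_base [Algebra.IsAlgebraic K L] [IsDomain (L ⊗[W] B)]
    (h : ¬ IsField (K ⊗[W] B)) : ¬ IsField (L ⊗[W] B) := by
  intro hL
  apply h
  -- `(K ⊗[W] B) ⊗[K] L` is integral over `K ⊗[W] B`, injectively, and isomorphic to `L ⊗[W] B`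
  let e : ((K ⊗[W] B) ⊗[K] L) ≃+* (L ⊗[W] B) :=
    (Algebra.TensorProduct.comm K (K ⊗[W] B) L).toRingEquiv.trans
      (cancelEquiv (W := W) (K := K) (L := L) (B := B))
  have hF : IsField ((K ⊗[W] B) ⊗[K] L) := e.toMulEquiv.isField hL
  haveI : Algebra.IsIntegral K L := inferInstance
  have hinj : Function.Injective (algebraMap (K ⊗[W] B) ((K ⊗[W] B) ⊗[K] L)) := by
    have h1 := Module.Flat.lTensor_preserves_injective_linearMap (M := K ⊗[W] B)
      (Algebra.linearMap K L) (algebraMap K L).injective
    intro x y hxy
    have hx : ∀ z : K ⊗[W] B, algebraMap (K ⊗[W] B) ((K ⊗[W] B) ⊗[K] L) z =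
        LinearMap.lTensor (K ⊗[W] B) (Algebra.linearMap K L)
          ((TensorProduct.rid K (K ⊗[W] B)).symm z) := by
      intro z
      rw [TensorProduct.rid_symm_apply, LinearMap.lTensor_tmul, Algebra.linearMap_apply, map_one]
      rfl
    rw [hx, hx] at hxy
    exact (TensorProduct.rid K (K ⊗[W] B)).symm.injective (h1 hxy)
  exact isField_of_isIntegral_of_isField hinj hF

end Base

/-! ### A chart inside the overlap -/

section Chart

variable {W L B B01 : Type*} [CommRing W] [Field L] [Algebra W L] [CommRing B]
  [CommRing B01] [Algebra W B] [Algebra W B01] [Algebra B B01] [IsScalarTower W B B01]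
  (K : Type*) [Field K] [Algebra W K] [IsFractionRing W K] [Algebra K L] [IsScalarTower W K L]

include K in
/-- The chart `L ⊗[W] B` is a domain when the overlap `L ⊗[W] B01` is. -/
theorem isDomain_chart (hinj : Function.Injective (algebraMap B B01)) [IsDomain (L ⊗[W] B01)] :
    IsDomain (L ⊗[W] B) :=
  haveI : Module.Flat W L := flat_of_isFractionRing_tower (K := K)
  isDomain_tensor_of_injective (L := L) (IsScalarTower.toAlgHom W B B01) hinj

/-- **A chart of the generic fibre of the hub over an algebraic extension `L` of `K = Frac W` is a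
Dedekind domain**, given: the base level `K ⊗[W] B` is Dedekind, the overlap `L ⊗[W] B01` is a
domain, `B → B01` is injective, and the finite separable step `hsep`. -/
theorem isDedekindDomain_chart [Algebra.IsAlgebraic K L] [Algebra.FiniteType W B]
    [IsDedekindDomain (K ⊗[W] B)] (hinj : Function.Injective (algebraMap B B01))
    [IsDomain (L ⊗[W] B01)]
    (hsep : ∀ L' : IntermediateField K L, FiniteDimensional K L' →
      IsDomain (↥L' ⊗[K] (K ⊗[W] B)) → IsIntegrallyClosed (↥L' ⊗[K] (K ⊗[W] B))) :
    IsDedekindDomain (L ⊗[W] B) :=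
  haveI : IsDomain (L ⊗[W] B) := isDomain_chart (W := W) (L := L) (B01 := B01) K hinj
  isDedekindDomain_tensor_of_base (K := K) hsep

/-- The chart `L ⊗[W] B` is not a field if `K ⊗[W] B` is not. -/
theorem not_isField_chart [Algebra.IsAlgebraic K L] (hinj : Function.Injective (algebraMap B B01))
    [IsDomain (L ⊗[W] B01)] (h : ¬ IsField (K ⊗[W] B)) : ¬ IsField (L ⊗[W] B) :=
  haveI : IsDomain (L ⊗[W] B) := isDomain_chart (W := W) (L := L) (B01 := B01) K hinj
  not_isField_tensor_of_base (K := K) h

end Chart

end Fermat.Agent.T1B.DescGen8.Plumb
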