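/-
T1B (row 38), brick Phi4-GEN (generic-fibre hypotheses of DESC' for the hub), helper8.
File 3: the assembled provider (characteristic zero): `DescGen8.Plumb` + helper1's finite separable
step `DescSep1.isIntegrallyClosed_tensor_of_finite`.

`W` a domain with fraction field `K` of characteristic zero, `L/K` an ALGEBRAIC field extension
(a number field, or `ℚ̄`), `B → B01` an injective map of `W`-algebras, `B` of finite type:
if `K ⊗[W] B` is a Dedekind domain and `L ⊗[W] B01` is a domain, then `L ⊗[W] B` is a Dedekind
domain; it is not a field if `K ⊗[W] B` is not.
-/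
import Mathlib
import Fermat.Agent.T1B.DescGen8.Plumb
import Fermat.Agent.T1B.DescSep1.Tensor

set_option autoImplicit false
set_option linter.unusedSectionVars false
set_option linter.style.haveILetI false

open TensorProduct

namespace Fermat.Agent.T1B.DescGen8.Chart

variable {W L B B01 : Type*} [CommRing W] [Field L] [Algebra W L] [CommRing B]
  [CommRing B01] [Algebra W B] [Algebra W B01] [Algebra B B01] [IsScalarTower W B B01]
  (K : Type*) [Field K] [CharZero K] [Algebra W K] [IsFractionRing W K] [Algebra K L]
  [IsScalarTower W K L] [Algebra.IsAlgebraic K L]

/-- **The charts of the generic fibre of the hub over any algebraic extension of `K = Frac W` are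
Dedekind domains** (characteristic zero). -/
theorem isDedekindDomain_chart [Algebra.FiniteType W B] [IsDedekindDomain (K ⊗[W] B)]
    (hinj : Function.Injective (algebraMap B B01)) [IsDomain (L ⊗[W] B01)] :
    IsDedekindDomain (L ⊗[W] B) :=
  Plumb.isDedekindDomain_chart (W := W) (L := L) (B := B) (B01 := B01) K hinj
    fun L' hfd hdom => by
      haveI := hfd
      haveI := hdom
      haveI : Algebra.IsSeparable K ↥L' := inferInstance
      exact DescSep1.isIntegrallyClosed_tensor_of_finite

/-- The chart over `L` is not a field if the chart over `K` is not. -/
theorem not_isField_chart (hinj : Function.Injective (algebraMap B B01))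
    [IsDomain (L ⊗[W] B01)] (h : ¬ IsField (K ⊗[W] B)) : ¬ IsField (L ⊗[W] B) :=
  Plumb.not_isField_chart (W := W) (L := L) (B := B) (B01 := B01) K hinj h

end Fermat.Agent.T1B.DescGen8.Chart
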